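import Fermat.Agent.S20.Free.Defs

/-!
# S20 / Free: a generating family has at least `psi N` members
-/

set_option autoImplicit false

open UpperHalfPlane ModularForm CongruenceSubgroup
open scoped MatrixGroups ModularForm Manifold
open Fermat.Agent.S23

namespace Fermat.Agent.S20.FreeAux

variable {N : ℕ} [NeZero N]

/-- Linear algebra: if the Vandermonde matrix of `n` pairwise distinct numbers factors through
`ι → ℂ` then `n ≤ card ι`. -/
theorem card_ge_of_vandermonde {n : ℕ} {ι : Type} [Fintype ι] (v : Fin n → ℂ)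
    (hv : Function.Injective v) (P : Fin n → ι → ℂ) (Q : ι → Fin n → ℂ)
    (h : ∀ a j : Fin n, v j ^ (a : ℕ) = ∑ i, P a i * Q i j) : n ≤ Fintype.card ι := by
  classical
  have hV : (Matrix.vandermonde v).transpose
      = (Matrix.of P : Matrix (Fin n) ι ℂ) * (Matrix.of Q : Matrix ι (Fin n) ℂ) := by
    ext a j
    rw [Matrix.transpose_apply, Matrix.vandermonde_apply, Matrix.mul_apply, h a j]
    rfl
  have hdet : Matrix.det (Matrix.vandermonde v).transpose ≠ 0 := by
    rw [Matrix.det_transpose]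
    exact Matrix.det_vandermonde_ne_zero_iff.mpr hv
  have hunit : IsUnit (Matrix.vandermonde v).transpose :=
    (Matrix.isUnit_iff_isUnit_det _).mpr (isUnit_iff_ne_zero.mpr hdet)
  have hrank := Matrix.rank_of_isUnit _ hunit
  rw [Fintype.card_fin] at hrank
  calc n = ((Matrix.of P : Matrix (Fin n) ι ℂ) * (Matrix.of Q : Matrix ι (Fin n) ℂ)).rank := by
        rw [← hV, hrank]
    _ ≤ (Matrix.of P : Matrix (Fin n) ι ℂ).rank := Matrix.rank_mul_le_left _ _
    _ ≤ Fintype.card ι := Matrix.rank_le_card_width _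

/-- A generating family has at least `psi N` members. -/
theorem gen_card_ge {ι : Type} [Fintype ι] (κ : ι → ℕ) (g : ∀ i, ModularForm (Gam N) (κ i))
    (hgen : Gen κ g) : psi N ≤ Fintype.card ι := by
  obtain ⟨t, ht⟩ := exists_tForm N
  have hinj : Function.Injective (cj t) :=
    cj_injective_of_stabilizer t fun γ h => tFun_stabilizer N γ (by rw [← ht]; exact h)
  obtain ⟨z, hz⟩ := exists_point_injective (cj t) (fun i => cj_mdiff t i) hinj
  have hA : ∀ a : Fin (psi N), ∃ A : (∀ i, ModularForm 𝒮ℒ ((((a : ℕ) : ℤ) * 4) - (κ i : ℤ))),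
      ∀ z' : ℍ, (t.pow (a : ℕ)) z' = ∑ i, A i z' * g i z' :=
    fun a => hgen (((a : ℕ) : ℤ) * 4) (t.pow (a : ℕ))
  choose A hA' using hA
  refine card_ge_of_vandermonde (fun j => cj t j z) hz (fun a i => A a i z)
    (fun i j => cj (g i) j z) ?_
  intro a j
  have hH : ∀ i, ∃ H : ModularForm (Gam N) (((a : ℕ) : ℤ) * 4),
      ∀ z' : ℍ, H z' = A a i z' * g i z' := by
    intro i
    obtain ⟨H, hH⟩ := exists_mulL1 (A a i) (g i)
    exact ⟨ModularForm.mcast (by ring) H, hH⟩
  choose H hH' using hH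
  have h1 : cj (t.pow (a : ℕ)) j z = ∑ i, cj (H i) j z :=
    cj_of_eq_sum Finset.univ (t.pow (a : ℕ)) H
      (fun z' => by rw [hA' a z']; exact Finset.sum_congr rfl fun i _ => (hH' i z').symm) j z
  have h2 : ∀ i, cj (H i) j z = A a i z * cj (g i) j z := fun i =>
    cj_of_eq_mul (A a i) (g i) (H i) (by ring) (hH' i) j z
  have h3 : cj (t.pow (a : ℕ)) j z = (cj t j z) ^ (a : ℕ) := by
    rw [cj_pow, Pi.pow_apply]
  change (cj t j z) ^ (a : ℕ) = ∑ i, A a i z * cj (g i) j z
  rw [← h3, h1]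
  exact Finset.sum_congr rfl fun i _ => h2 i

end Fermat.Agent.S20.FreeAux
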