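import Fermat.Agent.S20.Free.Lincomb

/-!
# S20 / Free: dimension inequality for an independent family
-/

set_option autoImplicit false

open UpperHalfPlane ModularForm CongruenceSubgroup
open scoped MatrixGroups ModularForm Manifold
open Fermat.Agent.S23

namespace Fermat.Agent.S20.FreeAux

variable {N : ℕ} [NeZero N]

/-- For an independent family, `⊕ A_{K - κ i} → M_K(Γ₀(N))` is injective, so
`∑ dim A_{K - κ i} ≤ dim M_K(Γ₀(N))`. -/
theorem indep_sum_finrank_le {ι : Type} [Fintype ι] (κ : ι → ℕ)
    (g : ∀ i, ModularForm (Gam N) (κ i)) (hind : Indep κ g) (K : ℤ) :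
    ∑ i, Module.finrank ℂ (ModularForm 𝒮ℒ (K - (κ i : ℤ))) ≤
      Module.finrank ℂ (ModularForm (Gam N) K) := by
  classical
  have := finiteDimensional_modularForm (N := N) K
  -- the chosen linear combination
  let Φ : (∀ i, ModularForm 𝒮ℒ (K - (κ i : ℤ))) → ModularForm (Gam N) K :=
    fun a => Classical.choose (exists_lincomb κ g K a)
  have hΦ : ∀ (a : ∀ i, ModularForm 𝒮ℒ (K - (κ i : ℤ))) (z : ℍ),
      Φ a z = ∑ i, a i z * g i z :=
    fun a => Classical.choose_spec (exists_lincomb κ g K a)
  let L : (∀ i, ModularForm 𝒮ℒ (K - (κ i : ℤ))) →ₗ[ℂ] ModularForm (Gam N) K :=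
    { toFun := Φ
      map_add' := by
        intro a b
        apply DFunLike.ext
        intro z
        rw [add_apply, hΦ, hΦ, hΦ, ← Finset.sum_add_distrib]
        refine Finset.sum_congr rfl fun i _ => ?_
        rw [Pi.add_apply, add_apply, add_mul]
      map_smul' := by
        intro c a
        apply DFunLike.ext
        intro z
        rw [smul_apply, hΦ, hΦ, RingHom.id_apply, smul_eq_mul, Finset.mul_sum]
        refine Finset.sum_congr rfl fun i _ => ?_
        rw [Pi.smul_apply, smul_apply, smul_eq_mul, mul_assoc] }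
  have hinj : Function.Injective L := by
    rw [injective_iff_map_eq_zero]
    intro a ha
    funext i
    refine hind K a (fun z => ?_) i
    have h1 : L a z = ∑ i, a i z * g i z := hΦ a z
    rw [← h1, ha]
    rfl
  rw [← Module.finrank_pi_fintype ℂ]
  exact LinearMap.finrank_le_finrank_of_injective hinj

end Fermat.Agent.S20.FreeAux
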