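import Fermat.Agent.S20.Free.LevelOne
import Fermat.Agent.S20.Free.CardLeDim

/-!
# S20 / Free: an independent family has at most `psi N` members
-/

set_option autoImplicit false

open UpperHalfPlane ModularForm CongruenceSubgroup
open scoped MatrixGroups ModularForm Manifold
open Fermat.Agent.S23

namespace Fermat.Agent.S20.FreeAux

variable {N : ℕ} [NeZero N]

omit [NeZero N] in
/-- The members of an independent family are non-zero. -/
private theorem cardLe_indep_ne_zero {ι : Type} [Fintype ι] (κ : ι → ℕ)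
    (g : ∀ i, ModularForm (Gam N) (κ i)) (hind : Indep κ g) (i₀ : ι) : g i₀ ≠ 0 := by
  classical
  intro h0
  obtain ⟨u, hu⟩ := exists_L1_const (e := (κ i₀ : ℤ) - (κ i₀ : ℤ)) (sub_self _) 1
  have key := hind (κ i₀ : ℤ)
    (Function.update (fun i => (0 : ModularForm 𝒮ℒ ((κ i₀ : ℤ) - (κ i : ℤ)))) i₀ u) (by
      intro z
      refine Finset.sum_eq_zero (fun i _ => ?_)
      by_cases h : i = i₀
      · subst h
        rw [h0]
        simp
      · rw [Function.update_of_ne h]
        simp) i₀
  rw [Function.update_self] at key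
  have h1 := hu UpperHalfPlane.I
  rw [key] at h1
  simp at h1

/-- The members of an independent family have even weight. -/
theorem indep_even {ι : Type} [Fintype ι] (κ : ι → ℕ) (g : ∀ i, ModularForm (Gam N) (κ i))
    (hind : Indep κ g) (i : ι) : Even (κ i) := by
  by_contra hodd
  rw [Nat.not_even_iff_odd] at hodd
  have h1 : Odd ((κ i : ℕ) : ℤ) := (Int.odd_coe_nat _).2 hodd
  exact cardLe_indep_ne_zero κ g hind i (modularForm_odd_weight h1 (g i))

/-- An independent family has at most `psi N` members. -/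
theorem indep_card_le {ι : Type} [Fintype ι] (κ : ι → ℕ) (g : ∀ i, ModularForm (Gam N) (κ i))
    (hind : Indep κ g) : Fintype.card ι ≤ psi N := by
  by_contra hlt
  rw [not_le] at hlt
  set μ := psi N with hμ
  set C : ℕ := 2 * ∑ i, κ i with hC
  set L : ℕ := C * μ + 2 with hL
  have hKeq : ((12 * L + C : ℕ) : ℤ) = 12 * (L : ℤ) + (C : ℤ) := by push_cast; ring
  have hterm : ∀ i, L ≤ Module.finrank ℂ (ModularForm 𝒮ℒ (((12 * L + C : ℕ) : ℤ) - (κ i : ℤ))) := by
    intro i
    have hle : κ i ≤ ∑ j, κ j :=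
      Finset.single_le_sum (f := κ) (fun j _ => Nat.zero_le _) (Finset.mem_univ i)
    obtain ⟨m, hm⟩ := indep_even κ g hind i
    refine finrank_levelOne_ge L ?_ ?_
    · refine ⟨6 * (L : ℤ) + (∑ j, κ j : ℕ) - (m : ℤ), ?_⟩
      rw [hKeq, hC, hm]
      push_cast
      ring
    · rw [hKeq, hC]
      have : (κ i : ℤ) ≤ ((∑ j, κ j : ℕ) : ℤ) := by exact_mod_cast hle
      push_cast at this ⊢
      linarith [this, Finset.sum_nonneg (fun j (_ : j ∈ Finset.univ) => Int.natCast_nonneg (κ j))]
  have hsum : Fintype.card ι * L ≤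
      ∑ i, Module.finrank ℂ (ModularForm 𝒮ℒ (((12 * L + C : ℕ) : ℤ) - (κ i : ℤ))) := by
    calc Fintype.card ι * L = ∑ _i : ι, L := by
          rw [Finset.sum_const, Finset.card_univ, smul_eq_mul]
      _ ≤ _ := Finset.sum_le_sum (fun i _ => hterm i)
  have h2 := indep_sum_finrank_le κ g hind ((12 * L + C : ℕ) : ℤ)
  have h3 := finrank_modularForm_le (N := N) ((12 * L + C : ℕ) : ℤ)
  have h4 : (((12 * L + C : ℕ) : ℤ) * (psi N : ℤ)).toNat = 12 * (L * μ) + C * μ := by
    rw [← Nat.cast_mul, Int.toNat_natCast, hμ]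
    ring
  rw [h4] at h3
  have h5 : (12 * (L * μ) + C * μ) / 12 + 1 ≤ L * μ + C * μ + 1 := by
    generalize C * μ = x
    generalize L * μ = y
    omega
  have h6 : Fintype.card ι * L ≤ L * μ + C * μ + 1 := by omega
  have h7 : (μ + 1) * L ≤ Fintype.card ι * L := Nat.mul_le_mul_right L hlt
  have h8 : (μ + 1) * L = L * μ + L := by ring
  omega

end Fermat.Agent.S20.FreeAux
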