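import Fermat.Agent.S20.Free.LevelOne

/-!
# S20 / Free: a family spanning modulo `(E₄, E₆)` generates over the level-one forms
-/

set_option autoImplicit false

open UpperHalfPlane ModularForm CongruenceSubgroup
open scoped MatrixGroups ModularForm Manifold
open Fermat.Agent.S23

namespace Fermat.Agent.S20.FreeAux

variable {N : ℕ} [NeZero N]

/-- Forms of negative weight are trivially generated. -/
private theorem gen_neg_aux {ι : Type} [Fintype ι] (κ : ι → ℕ)
    (g : ∀ i, ModularForm (Gam N) (κ i)) {K : ℤ} (hK : K < 0) (F : ModularForm (Gam N) K) :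
    ∃ a : (∀ i, ModularForm 𝒮ℒ (K - (κ i : ℤ))), ∀ z : ℍ, F z = ∑ i, a i z * g i z := by
  refine ⟨fun _ => 0, fun z => ?_⟩
  rw [modularForm_neg_weight hK F]
  simp

/-- The induction: all weights `K < n` are generated. -/
private theorem gen_ind_aux {ι : Type} [Fintype ι] (κ : ι → ℕ)
    (g : ∀ i, ModularForm (Gam N) (κ i)) (hspan : SpansMod κ g) (n : ℕ) :
    ∀ K : ℤ, K < n → ∀ F : ModularForm (Gam N) K,
      ∃ a : (∀ i, ModularForm 𝒮ℒ (K - (κ i : ℤ))), ∀ z : ℍ, F z = ∑ i, a i z * g i z := by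
  induction n with
  | zero =>
    intro K hK F
    exact gen_neg_aux κ g (by simpa using hK) F
  | succ n ih =>
    intro K hK F
    by_cases hneg : K < 0
    · exact gen_neg_aux κ g hneg F
    · have hK0 : 0 ≤ K := not_lt.mp hneg
      obtain ⟨m, rfl⟩ := Int.eq_ofNat_of_zero_le hK0
      obtain ⟨c, F₁, F₂, hc, hF⟩ := hspan m F
      have hm : (m : ℤ) < (n : ℤ) + 1 := by exact_mod_cast hK
      obtain ⟨a₁, ha₁⟩ := ih ((m : ℤ) - 4) (by omega) F₁
      obtain ⟨a₂, ha₂⟩ := ih ((m : ℤ) - 6) (by omega) F₂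
      have hp : ∀ i, ∃ p : ModularForm 𝒮ℒ ((m : ℤ) - (κ i : ℤ)), ∀ z : ℍ, p z = c i := by
        intro i
        by_cases hi : κ i = m
        · exact exists_L1_const (by rw [hi]; ring) (c i)
        · exact ⟨0, fun z => by rw [hc i hi]; rfl⟩
      have hq₁ : ∀ i, ∃ q : ModularForm 𝒮ℒ ((m : ℤ) - (κ i : ℤ)),
          ∀ z : ℍ, q z = E₄ z * a₁ i z :=
        fun i => exists_L1_mul (by ring) E₄ (a₁ i)
      have hq₂ : ∀ i, ∃ q : ModularForm 𝒮ℒ ((m : ℤ) - (κ i : ℤ)),
          ∀ z : ℍ, q z = E₆ z * a₂ i z :=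
        fun i => exists_L1_mul (by ring) E₆ (a₂ i)
      choose p hp using hp
      choose q₁ hq₁ using hq₁
      choose q₂ hq₂ using hq₂
      refine ⟨fun i => p i + q₁ i + q₂ i, fun z => ?_⟩
      rw [hF z, ha₁ z, ha₂ z, Finset.mul_sum, Finset.mul_sum, ← Finset.sum_add_distrib,
        ← Finset.sum_add_distrib]
      refine Finset.sum_congr rfl fun i _ => ?_
      rw [add_apply, add_apply, hp i z, hq₁ i z, hq₂ i z]
      ring

/-- A family spanning modulo `(E₄, E₆)` in every weight generates `M_*(Γ₀(N))` over the ring of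
level-one forms. -/
theorem spansMod_gen {ι : Type} [Fintype ι] (κ : ι → ℕ) (g : ∀ i, ModularForm (Gam N) (κ i))
    (hspan : SpansMod κ g) : Gen κ g := by
  intro K F
  exact gen_ind_aux κ g hspan (K + 1).toNat K (by omega) F

end Fermat.Agent.S20.FreeAux
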