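import Fermat.Agent.S20.Free.Defs

/-!
# S20 / Free: linear combinations of a family with level-one coefficients; `E₄` is not a
zero divisor
-/

set_option autoImplicit false

open UpperHalfPlane ModularForm CongruenceSubgroup
open scoped MatrixGroups ModularForm Manifold
open Fermat.Agent.S23

namespace Fermat.Agent.S20.FreeAux

variable {N : ℕ} [NeZero N]

/-- A linear combination `∑ a i · g i` with level-one coefficients `a i` of weight `K - κ i` is a
modular form of weight `K` and level `Γ₀(N)`. -/
theorem exists_lincomb {ι : Type} [Fintype ι] (κ : ι → ℕ) (g : ∀ i, ModularForm (Gam N) (κ i))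
    (K : ℤ) (a : ∀ i, ModularForm 𝒮ℒ (K - (κ i : ℤ))) :
    ∃ G : ModularForm (Gam N) K, ∀ z : ℍ, G z = ∑ i, a i z * g i z := by
  classical
  choose h hh using fun i => exists_mulL1 (a i) (g i)
  have hw : ∀ i, K - (κ i : ℤ) + (κ i : ℤ) = K := fun i => by ring
  refine ⟨∑ i, ModularForm.mcast (hw i) (h i), fun z => ?_⟩
  have key : ∀ s : Finset ι,
      (∑ i ∈ s, (ModularForm.mcast (hw i) (h i) : ModularForm (Gam N) K)) z =
        ∑ i ∈ s, a i z * g i z := by
    intro s
    induction s using Finset.induction_on with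
    | empty => simp
    | insert i s hi ih =>
      rw [Finset.sum_insert hi, Finset.sum_insert hi, add_apply, ih]
      congr 1
      exact hh i z
  exact key _

omit [NeZero N] in
/-- `E₄` is not a zero divisor on `M_*(Γ₀(N))`. -/
theorem eq_zero_of_E₄_mul {K : ℤ} (F : ModularForm (Gam N) K)
    (h : ∀ z : ℍ, E₄ z * F z = 0) : F = 0 := by
  have h1 : (E₄ : ℍ → ℂ) * (F : ℍ → ℂ) = 0 := funext h
  rw [UpperHalfPlane.mul_eq_zero_iff (ModularFormClass.holo E₄) (ModularFormClass.holo F)] at h1
  rcases h1 with h1 | h1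
  · exfalso
    have h4 : E₄ UpperHalfPlane.I ≠ 0 := by
      rcases E₄_ne_zero_or_E₆_ne_zero UpperHalfPlane.I with h | h
      · exact h
      · exact absurd E₆_I h
    exact h4 (congrFun h1 _)
  · exact DFunLike.coe_injective h1

end Fermat.Agent.S20.FreeAux
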