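import Fermat.Agent.S20.Free.LevelOne
import Fermat.Agent.S20.Free.Lincomb

/-!
# S20 / Free: a family independent modulo `(E₄, E₆)` is `ℂ[E₆]`-independent modulo `E₄`
-/

set_option autoImplicit false

open UpperHalfPlane ModularForm CongruenceSubgroup
open scoped MatrixGroups ModularForm Manifold
open Fermat.Agent.S23

namespace Fermat.Agent.S20.FreeAux

variable {N : ℕ} [NeZero N]

/-- Induction form of `isMin_e6` (induction on a bound for the weight). -/
private theorem isMin_e6_aux {ι : Type} [Fintype ι] (κ : ι → ℕ)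
    (g : ∀ i, ModularForm (Gam N) (κ i)) (hmin : IsMin κ g) (n : ℕ) :
    ∀ K : ℤ, K < (n : ℤ) → ∀ (c : ι → ℂ) (H : ModularForm (Gam N) (K - 4)),
      (∀ z : ℍ, ∑ i, c i * e6p (K - (κ i : ℤ)) z * g i z = E₄ z * H z) →
      ∀ i, (0 ≤ K - (κ i : ℤ) ∧ (6 : ℤ) ∣ K - (κ i : ℤ)) → c i = 0 := by
  induction n with
  | zero =>
    intro K hK c H _ i hi
    exfalso
    have h1 := hi.1
    have h2 : (0 : ℤ) ≤ (κ i : ℤ) := Int.natCast_nonneg _
    simp only [Nat.cast_zero] at hK
    omega
  | succ n ih =>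
    intro K hK c H h
    -- the two parts of the coefficient vector
    set c0 : ι → ℂ := fun i => if (κ i : ℤ) = K then c i else 0 with hc0
    set c1 : ι → ℂ := fun i => if (κ i : ℤ) = K then 0 else c i with hc1
    -- termwise decomposition
    have hterm : ∀ (i : ι) (z : ℍ), c i * e6p (K - (κ i : ℤ)) z * g i z
        = c0 i * g i z + E₆ z * (c1 i * e6p (K - 6 - (κ i : ℤ)) z * g i z) := by
      intro i z
      by_cases hi : (κ i : ℤ) = K
      · have e0 : K - (κ i : ℤ) = 0 := by rw [hi]; ring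
        simp only [hc0, hc1, if_pos hi, e0, e6p_zero]
        ring
      · have hne : K - (κ i : ℤ) ≠ 0 := fun h0 => hi (by omega)
        simp only [hc0, hc1, if_neg hi]
        rw [e6p_of_ne_zero hne z,
          show K - (κ i : ℤ) - 6 = K - 6 - (κ i : ℤ) by ring]
        ring
    -- the level-one monomials
    choose P hP using fun i : ι => exists_e6p_form (K - 6 - (κ i : ℤ))
    obtain ⟨F₂, hF₂⟩ := exists_lincomb κ g (K - 6) (fun i => c1 i • P i)
    have hF₂' : ∀ z : ℍ, F₂ z = ∑ i, c1 i * e6p (K - 6 - (κ i : ℤ)) z * g i z := by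
      intro z
      rw [hF₂ z]
      refine Finset.sum_congr rfl fun i _ => ?_
      rw [smul_apply, smul_eq_mul, hP i z]
    have hsum : ∀ z : ℍ, ∑ i, c0 i * g i z + E₆ z * F₂ z = E₄ z * H z := by
      intro z
      rw [← h z, hF₂' z, Finset.mul_sum, ← Finset.sum_add_distrib]
      exact Finset.sum_congr rfl fun i _ => (hterm i z).symm
    -- minimality kills `c0`
    have hc0z : ∀ i, c0 i = 0 := by
      refine hmin K c0 H (-F₂) (fun i hi => by simp only [hc0, if_neg hi]) ?_
      intro z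
      have := hsum z
      rw [neg_apply, ← this]
      ring
    have hE : ∀ z : ℍ, E₆ z * F₂ z = E₄ z * H z := by
      intro z
      have := hsum z
      simp only [hc0z, zero_mul, Finset.sum_const_zero, zero_add] at this
      exact this
    obtain ⟨u, hu⟩ := reg_E₄_E₆ (K := K) F₂ H hE
    have hw : K - 10 = K - 6 - 4 := by ring
    have hrel : ∀ z : ℍ, ∑ i, c1 i * e6p (K - 6 - (κ i : ℤ)) z * g i z
        = E₄ z * (ModularForm.mcast hw u) z := by
      intro z
      rw [← hF₂' z, hu z]
      rfl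
    have hc1z := ih (K - 6) (by push_cast at hK; omega) c1 (ModularForm.mcast hw u) hrel
    intro i hi
    by_cases hiK : (κ i : ℤ) = K
    · have := hc0z i
      simpa only [hc0, if_pos hiK] using this
    · obtain ⟨h0, k, hk⟩ := hi
      have := hc1z i ⟨by omega, ⟨k - 1, by omega⟩⟩
      simpa only [hc1, if_neg hiK] using this

/-- If the `g i` are independent modulo `(E₄, E₆)` then they are `ℂ[E₆]`-independent modulo
`E₄`: a relation `∑ c i · E₆^((K - κ i)/6) · g i = E₄ · H` forces `c i = 0` for all `i` for which the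
monomial is defined. -/
theorem isMin_e6 {ι : Type} [Fintype ι] (κ : ι → ℕ) (g : ∀ i, ModularForm (Gam N) (κ i))
    (hmin : IsMin κ g) (K : ℤ) (c : ι → ℂ) (H : ModularForm (Gam N) (K - 4))
    (h : ∀ z : ℍ, ∑ i, c i * e6p (K - (κ i : ℤ)) z * g i z = E₄ z * H z) :
    ∀ i, (0 ≤ K - (κ i : ℤ) ∧ (6 : ℤ) ∣ K - (κ i : ℤ)) → c i = 0 :=
  isMin_e6_aux κ g hmin (K + 1).toNat K (by omega) c H h

end Fermat.Agent.S20.FreeAux
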