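import Fermat.Agent.S20.Free.Decomp
import Fermat.Agent.S20.Free.IndepE6

/-!
# S20 / Free: a family independent modulo `(E₄, E₆)` is independent over the level-one forms
-/

set_option autoImplicit false

open UpperHalfPlane ModularForm CongruenceSubgroup
open scoped MatrixGroups ModularForm Manifold
open Fermat.Agent.S23

namespace Fermat.Agent.S20.FreeAux

variable {N : ℕ} [NeZero N]

/-- A family which is independent modulo `(E₄, E₆)` is independent over the ring of level-one
forms. -/
theorem isMin_indep {ι : Type} [Fintype ι] (κ : ι → ℕ) (g : ∀ i, ModularForm (Gam N) (κ i))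
    (hmin : IsMin κ g) : Indep κ g := by
  have Q : ∀ n : ℕ, ∀ K : ℤ, K < n → ∀ a : (∀ i, ModularForm 𝒮ℒ (K - (κ i : ℤ))),
      (∀ z : ℍ, ∑ i, a i z * g i z = 0) → ∀ i, a i = 0 := by
    intro n
    induction n with
    | zero =>
      intro K hK a _ i
      have hneg : K - (κ i : ℤ) < 0 := by
        have : (0 : ℤ) ≤ (κ i : ℤ) := Int.natCast_nonneg _
        have hK' : K < 0 := by simpa using hK
        omega
      have h0 := ModularFormClass.levelOne_neg_weight_eq_zero hneg (a i)
      ext z
      rw [h0]
      rfl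
    | succ n ih =>
      intro K hK a ha
      have hdec : ∀ i, ∃ (b : ModularForm 𝒮ℒ (K - 4 - (κ i : ℤ))) (c : ℂ),
          ∀ z : ℍ, a i z = E₄ z * b z + c * e6p (K - (κ i : ℤ)) z := fun i =>
        levelOne_decomp (e := K - (κ i : ℤ)) (e' := K - 4 - (κ i : ℤ)) (by ring) (a i)
      choose b c hbc using hdec
      obtain ⟨Hb, hHb⟩ := exists_lincomb κ g (K - 4) b
      have hsum : ∀ z : ℍ, ∑ i, a i z * g i z
          = E₄ z * Hb z + ∑ i, c i * e6p (K - (κ i : ℤ)) z * g i z := by
        intro z
        rw [hHb z, Finset.mul_sum, ← Finset.sum_add_distrib]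
        refine Finset.sum_congr rfl fun i _ => ?_
        rw [hbc i z]
        ring
      have hc : ∀ i, (0 ≤ K - (κ i : ℤ) ∧ (6 : ℤ) ∣ K - (κ i : ℤ)) → c i = 0 := by
        refine isMin_e6 κ g hmin K c (-Hb) fun z => ?_
        have h1 := hsum z
        rw [ha z] at h1
        rw [neg_apply]
        linear_combination -h1
      have hce : ∀ i (z : ℍ), c i * e6p (K - (κ i : ℤ)) z = 0 := by
        intro i z
        by_cases h : 0 ≤ K - (κ i : ℤ) ∧ (6 : ℤ) ∣ K - (κ i : ℤ)
        · rw [hc i h, zero_mul]
        · rw [e6p_of_not h, mul_zero]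
      have hHb0 : Hb = 0 := by
        refine eq_zero_of_E₄_mul Hb fun z => ?_
        have h1 := hsum z
        rw [ha z] at h1
        have h2 : ∑ i, c i * e6p (K - (κ i : ℤ)) z * g i z = 0 :=
          Finset.sum_eq_zero fun i _ => by rw [hce i z, zero_mul]
        rw [h2, add_zero] at h1
        exact h1.symm
      have hb : ∀ i, b i = 0 := by
        refine ih (K - 4) (by push_cast at hK; omega) b fun z => ?_
        rw [← hHb z, hHb0]
        rfl
      intro i
      ext z
      rw [hbc i z, hce i z, hb i]
      simp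
  intro K a ha
  exact Q (K + 1).toNat K (by omega) a ha

end Fermat.Agent.S20.FreeAux
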