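import Fermat.Agent.S20.Free.Defs

/-!
# S20 / Free: a family independent modulo `(E₄, E₆)` of maximal size spans modulo `(E₄, E₆)`
-/

set_option autoImplicit false

open UpperHalfPlane ModularForm CongruenceSubgroup
open scoped MatrixGroups ModularForm Manifold
open Fermat.Agent.S23

namespace Fermat.Agent.S20.FreeAux

variable {N : ℕ} [NeZero N]

/-- Reindexing a family along an equivalence. -/
theorem IsMin.reindex {ι ι' : Type} [Fintype ι] [Fintype ι'] (e : ι' ≃ ι) {κ : ι → ℕ}
    {g : ∀ i, ModularForm (Gam N) (κ i)} (h : IsMin κ g) :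
    IsMin (fun i' => κ (e i')) (fun i' => g (e i')) := by
  intro K c' F₁ F₂ hsupp hsum i'
  have key := h K (fun i => c' (e.symm i)) F₁ F₂
    (fun i hi => hsupp (e.symm i) (by simpa using hi))
    (fun z => by
      rw [← hsum z]
      rw [← Equiv.sum_comp e (fun i => c' (e.symm i) * g i z)]
      simp)
    (e i')
  simpa using key

/-- Adding to a family independent modulo `(E₄, E₆)` a form `F` of weight `K` which is not in
`span {g i | κ i = K} + E₄·M_{K-4} + E₆·M_{K-6}` gives a family independent modulo `(E₄, E₆)`. -/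
theorem isMin_option {ι : Type} [Fintype ι] (κ : ι → ℕ) (g : ∀ i, ModularForm (Gam N) (κ i))
    (hmin : IsMin κ g) (K : ℕ) (F : ModularForm (Gam N) K)
    (hF : ¬ ∃ (c : ι → ℂ) (F₁ : ModularForm (Gam N) ((K : ℤ) - 4))
      (F₂ : ModularForm (Gam N) ((K : ℤ) - 6)),
      (∀ i, κ i ≠ K → c i = 0) ∧
      ∀ z : ℍ, F z = ∑ i, c i * g i z + E₄ z * F₁ z + E₆ z * F₂ z) :
    IsMin (fun o : Option ι => o.elim K κ)
      (fun o => match o with
        | none => F
        | some i => g i) := by
  intro K' c' F₁ F₂ hsupp hsum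
  have hsum' : ∀ z : ℍ, c' none * F z + ∑ i, c' (some i) * g i z
      = E₄ z * F₁ z + E₆ z * F₂ z := by
    intro z
    rw [← hsum z, Fintype.sum_option]
    rfl
  have hnone : c' none = 0 := by
    by_contra hd
    have hK : (K : ℤ) = K' := by
      by_contra hne
      exact hd (hsupp none hne)
    subst hK
    refine hF ⟨fun i => -c' (some i) / c' none, (c' none)⁻¹ • F₁, (c' none)⁻¹ • F₂, ?_, ?_⟩
    · intro i hi
      have : c' (some i) = 0 := hsupp (some i) (by simpa using hi)
      simp [this]
    · intro z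
      have h1 := hsum' z
      have h2 : ∑ i, -c' (some i) / c' none * g i z
          = -(∑ i, c' (some i) * g i z) / c' none := by
        rw [← Finset.sum_neg_distrib, Finset.sum_div]
        refine Finset.sum_congr rfl fun i _ => ?_
        ring
      rw [h2]
      simp only [smul_apply, smul_eq_mul]
      field_simp
      linear_combination h1
  have hsome : ∀ i, c' (some i) = 0 := by
    refine hmin K' (fun i => c' (some i)) F₁ F₂ (fun i hi => hsupp (some i) hi) ?_
    intro z
    have h1 := hsum' z
    rw [hnone, zero_mul, zero_add] at h1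
    exact h1
  intro o
  cases o with
  | none => exact hnone
  | some i => exact hsome i

/-- If the sizes of the families independent modulo `(E₄, E₆)` are bounded, there is one which also
spans modulo `(E₄, E₆)`. -/
theorem exists_isMin_spansMod (N : ℕ) [NeZero N] (B : ℕ)
    (hB : ∀ (r : ℕ) (κ : Fin r → ℕ) (g : ∀ i, ModularForm (Gam N) (κ i)), IsMin κ g → r ≤ B) :
    ∃ (r : ℕ) (κ : Fin r → ℕ) (g : ∀ i, ModularForm (Gam N) (κ i)),
      IsMin κ g ∧ SpansMod κ g := by
  by_contra hcon
  have hall : ∀ r : ℕ, ∃ (κ : Fin r → ℕ) (g : ∀ i, ModularForm (Gam N) (κ i)), IsMin κ g := by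
    intro r
    induction r with
    | zero =>
      exact ⟨fun i => i.elim0, fun i => i.elim0, fun _ _ _ _ _ _ i => i.elim0⟩
    | succ r ih =>
      obtain ⟨κ, g, hmin⟩ := ih
      have hns : ¬ SpansMod κ g := fun hs => hcon ⟨r, κ, g, hmin, hs⟩
      unfold SpansMod at hns
      rw [not_forall] at hns
      obtain ⟨K, hns⟩ := hns
      rw [not_forall] at hns
      obtain ⟨F, hF'⟩ := hns
      have h3 := (isMin_option κ g hmin K F hF').reindex (finSuccEquiv r)
      exact ⟨_, _, h3⟩
  obtain ⟨κ, g, hmin⟩ := hall (B + 1)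
  have := hB (B + 1) κ g hmin
  omega

end Fermat.Agent.S20.FreeAux
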