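import Fermat.Agent.S20.Free.LevelOne

/-!
# S20 / Free: every level-one form of weight `e` is `E₄·b + c·E₆^(e/6)`
-/

set_option autoImplicit false

open UpperHalfPlane ModularForm CongruenceSubgroup
open scoped MatrixGroups ModularForm Manifold
open Fermat.Agent.S23

namespace Fermat.Agent.S20.FreeAux

variable {N : ℕ} [NeZero N]

/-- The dimension of the space of level-one forms of weight `e`. -/
private theorem decomp_finrank (e : ℤ) :
    Module.finrank ℂ (ModularForm 𝒮ℒ e) =
      if e < 0 ∨ Odd e then 0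
      else if e.toNat % 12 = 2 then e.toNat / 12 else e.toNat / 12 + 1 := by
  by_cases h : e < 0 ∨ Odd e
  · rw [if_pos h]
    rcases h with h | h
    · exact Module.finrank_eq_zero_of_rank_eq_zero (ModularForm.levelOne_neg_weight_rank_zero h)
    · exact Module.finrank_eq_zero_of_rank_eq_zero (ModularForm.levelOne_odd_weight_rank_zero h)
  · rw [if_neg h]
    obtain ⟨h0, h1⟩ := not_or.mp h
    have h0 := not_lt.mp h0
    lift e to ℕ using h0
    have hev : Even e := by
      have : Even (e : ℤ) := Int.not_odd_iff_even.mp h1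
      exact_mod_cast this
    have hd := ModularForm.dimension_level_one e hev
    simp only [Int.toNat_natCast]
    by_cases h2 : e % 12 = 2
    · rw [if_pos h2]
      rw [if_pos (show e ≡ 2 [MOD 12] from h2)] at hd
      exact Module.finrank_eq_of_rank_eq (by exact_mod_cast hd)
    · rw [if_neg h2]
      rw [if_neg (show ¬ e ≡ 2 [MOD 12] from h2)] at hd
      exact Module.finrank_eq_of_rank_eq (by exact_mod_cast hd)

/-- The dimension jump between weights `e - 4` and `e`. -/
private theorem decomp_finrank_sub (e : ℤ) :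
    Module.finrank ℂ (ModularForm 𝒮ℒ e) =
      Module.finrank ℂ (ModularForm 𝒮ℒ (e - 4)) + if 0 ≤ e ∧ (6 : ℤ) ∣ e then 1 else 0 := by
  rw [decomp_finrank e, decomp_finrank (e - 4)]
  simp only [Int.odd_iff]
  split_ifs <;> omega

/-- Multiplication by `E₄` as a linear map. -/
private noncomputable def decompMulE₄ (e : ℤ) : ModularForm 𝒮ℒ (e - 4) →ₗ[ℂ] ModularForm 𝒮ℒ e where
  toFun b := ModularForm.mcast (show 4 + (e - 4) = e by ring) (E₄.mul b)
  map_add' b₁ b₂ := by
    ext z
    show E₄ z * (b₁ z + b₂ z) = E₄ z * b₁ z + E₄ z * b₂ z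
    ring
  map_smul' c b := by
    ext z
    show E₄ z * (c * b z) = c * (E₄ z * b z)
    ring

private theorem decompMulE₄_apply (e : ℤ) (b : ModularForm 𝒮ℒ (e - 4)) (z : ℍ) :
    decompMulE₄ e b z = E₄ z * b z := rfl

private theorem decomp_E₄_fun_ne_zero : (fun z : ℍ => E₄ z) ≠ 0 := by
  intro h
  have h4 : E₄ UpperHalfPlane.I = 0 := congrFun h UpperHalfPlane.I
  exact (E₄_ne_zero_or_E₆_ne_zero UpperHalfPlane.I).elim (fun h' => h' h4) (fun h' => h' E₆_I)

private theorem decompMulE₄_injective (e : ℤ) : Function.Injective (decompMulE₄ e) := by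
  rw [injective_iff_map_eq_zero]
  intro b hb
  have h0 : (fun z : ℍ => E₄ z) * (fun z : ℍ => b z) = 0 := by
    funext z
    exact DFunLike.congr_fun hb z
  rcases (UpperHalfPlane.mul_eq_zero_iff (ModularFormClass.holo E₄) (ModularFormClass.holo b)).mp h0
    with h | h
  · exact absurd h decomp_E₄_fun_ne_zero
  · ext z
    exact congrFun h z

/-- Every level-one form `a` of weight `e` is `E₄ · b + c · E₆^(e/6)` with `b` of weight `e - 4`
and a constant `c` (the monomial `E₆^(e/6)` is `e6p e`, which is zero unless `0 ≤ e`, `6 ∣ e`). -/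
theorem levelOne_decomp {e e' : ℤ} (he : e' = e - 4) (a : ModularForm 𝒮ℒ e) :
    ∃ (b : ModularForm 𝒮ℒ e') (c : ℂ), ∀ z : ℍ, a z = E₄ z * b z + c * e6p e z := by
  subst he
  have hdim := decomp_finrank_sub e
  by_cases h6 : 0 ≤ e ∧ (6 : ℤ) ∣ e
  · rw [if_pos h6] at hdim
    obtain ⟨P, hP⟩ := exists_e6p_form e
    let φ : (ModularForm 𝒮ℒ (e - 4) × ℂ) →ₗ[ℂ] ModularForm 𝒮ℒ e :=
      (decompMulE₄ e).coprod ((LinearMap.id : ℂ →ₗ[ℂ] ℂ).smulRight P)
    have hφ : ∀ (b : ModularForm 𝒮ℒ (e - 4)) (c : ℂ) (z : ℍ),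
        φ (b, c) z = E₄ z * b z + c * e6p e z := by
      intro b c z
      show E₄ z * b z + c * P z = _
      rw [hP]
    have hinj : Function.Injective φ := by
      rw [injective_iff_map_eq_zero]
      rintro ⟨b, c⟩ hbc
      have hz : ∀ z : ℍ, E₄ z * b z + c * e6p e z = 0 := by
        intro z
        rw [← hφ]
        exact DFunLike.congr_fun hbc z
      have hc : c = 0 := by
        have h1 := hz Fermat.Agent.S24.rho
        rw [E₄_rho, zero_mul, zero_add, e6p_of_pos h6] at h1
        have h6ne : E₆ Fermat.Agent.S24.rho ≠ 0 :=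
          (E₄_ne_zero_or_E₆_ne_zero Fermat.Agent.S24.rho).resolve_left (not_not.mpr E₄_rho)
        exact (mul_eq_zero.mp h1).resolve_right (pow_ne_zero _ h6ne)
      subst hc
      have hb : decompMulE₄ e b = 0 := by
        ext z
        have := hz z
        rw [zero_mul, add_zero] at this
        exact this
      have hb0 : b = 0 := decompMulE₄_injective e (by rw [hb, map_zero])
      subst hb0
      rfl
    have hsurj : Function.Surjective φ :=
      (LinearMap.injective_iff_surjective_of_finrank_eq_finrank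
        (by rw [Module.finrank_prod, Module.finrank_self, hdim])).mp hinj
    obtain ⟨⟨b, c⟩, hbc⟩ := hsurj a
    refine ⟨b, c, fun z => ?_⟩
    rw [← hbc, hφ]
  · rw [if_neg h6, add_zero] at hdim
    have hsurj : Function.Surjective (decompMulE₄ e) :=
      (LinearMap.injective_iff_surjective_of_finrank_eq_finrank hdim.symm).mp
        (decompMulE₄_injective e)
    obtain ⟨b, hb⟩ := hsurj a
    refine ⟨b, 0, fun z => ?_⟩
    rw [← hb, decompMulE₄_apply, zero_mul, add_zero]

end Fermat.Agent.S20.FreeAux
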