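import Fermat.Agent.S20.Div

/-!
# S20 / Free: shared definitions of the chapter

For a finite family `g i : M_{κ i}(Γ₀(N))` (`i : ι`):
* `IsMin κ g`: for every weight `K` the `g i` of weight `K` are linearly independent modulo
  `E₄·M_{K-4} + E₆·M_{K-6}`;
* `SpansMod κ g`: for every weight `K` the `g i` of weight `K` span `M_K` modulo
  `E₄·M_{K-4} + E₆·M_{K-6}`;
* `Indep κ g`: the `g i` are linearly independent over the ring of level-one forms;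
* `Gen κ g`: the `g i` generate `M_*(Γ₀(N))` over the ring of level-one forms;
* `e6p e z`: the value at `z` of the monomial `E₆^(e/6)` of weight `e` (zero unless `0 ≤ e`, `6 ∣ e`).
-/

set_option autoImplicit false

open UpperHalfPlane ModularForm CongruenceSubgroup
open scoped MatrixGroups ModularForm Manifold
open Fermat.Agent.S23

namespace Fermat.Agent.S20.FreeAux

variable {N : ℕ} [NeZero N]

/-- The value at `z` of the level-one form `E₆^(e/6)` of weight `e` if `0 ≤ e` and `6 ∣ e`;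
zero otherwise. -/
noncomputable def e6p (e : ℤ) (z : ℍ) : ℂ :=
  if 0 ≤ e ∧ (6 : ℤ) ∣ e then E₆ z ^ (e / 6).toNat else 0

/-- The `g i` of weight `K` are linearly independent modulo `E₄·M_{K-4} + E₆·M_{K-6}`
(for every `K`). -/
def IsMin {ι : Type} [Fintype ι] (κ : ι → ℕ) (g : ∀ i, ModularForm (Gam N) (κ i)) : Prop :=
  ∀ (K : ℤ) (c : ι → ℂ) (F₁ : ModularForm (Gam N) (K - 4)) (F₂ : ModularForm (Gam N) (K - 6)),
    (∀ i, (κ i : ℤ) ≠ K → c i = 0) →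
    (∀ z : ℍ, ∑ i, c i * g i z = E₄ z * F₁ z + E₆ z * F₂ z) → ∀ i, c i = 0

/-- The `g i` of weight `K` span `M_K` modulo `E₄·M_{K-4} + E₆·M_{K-6}` (for every `K`). -/
def SpansMod {ι : Type} [Fintype ι] (κ : ι → ℕ) (g : ∀ i, ModularForm (Gam N) (κ i)) : Prop :=
  ∀ (K : ℕ) (F : ModularForm (Gam N) K),
    ∃ (c : ι → ℂ) (F₁ : ModularForm (Gam N) ((K : ℤ) - 4))
      (F₂ : ModularForm (Gam N) ((K : ℤ) - 6)),
      (∀ i, κ i ≠ K → c i = 0) ∧
      ∀ z : ℍ, F z = ∑ i, c i * g i z + E₄ z * F₁ z + E₆ z * F₂ z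

/-- The `g i` are linearly independent over the ring of level-one forms. -/
def Indep {ι : Type} [Fintype ι] (κ : ι → ℕ) (g : ∀ i, ModularForm (Gam N) (κ i)) : Prop :=
  ∀ (K : ℤ) (a : ∀ i, ModularForm 𝒮ℒ (K - (κ i : ℤ))),
    (∀ z : ℍ, ∑ i, a i z * g i z = 0) → ∀ i, a i = 0

/-- The `g i` generate `M_*(Γ₀(N))` over the ring of level-one forms. -/
def Gen {ι : Type} [Fintype ι] (κ : ι → ℕ) (g : ∀ i, ModularForm (Gam N) (κ i)) : Prop :=
  ∀ (K : ℤ) (F : ModularForm (Gam N) K),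
    ∃ a : (∀ i, ModularForm 𝒮ℒ (K - (κ i : ℤ))), ∀ z : ℍ, F z = ∑ i, a i z * g i z

theorem e6p_of_not {e : ℤ} (h : ¬ (0 ≤ e ∧ (6 : ℤ) ∣ e)) (z : ℍ) : e6p e z = 0 := by
  unfold e6p
  rw [if_neg h]

theorem e6p_of_pos {e : ℤ} (h : 0 ≤ e ∧ (6 : ℤ) ∣ e) (z : ℍ) :
    e6p e z = E₆ z ^ (e / 6).toNat := by
  unfold e6p
  rw [if_pos h]

theorem e6p_zero (z : ℍ) : e6p 0 z = 1 := by
  rw [e6p_of_pos (by simp)]
  simp

/-- `E₆^(e/6) = E₆ · E₆^((e-6)/6)` for `e ≠ 0`. -/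
theorem e6p_of_ne_zero {e : ℤ} (he : e ≠ 0) (z : ℍ) : e6p e z = E₆ z * e6p (e - 6) z := by
  by_cases h : 0 ≤ e ∧ (6 : ℤ) ∣ e
  · obtain ⟨h0, k, rfl⟩ := h
    have hk : 1 ≤ k := by omega
    rw [e6p_of_pos ⟨h0, Dvd.intro k rfl⟩, e6p_of_pos ⟨by omega, ⟨k - 1, by ring⟩⟩]
    have h1 : (6 * k / 6).toNat = ((6 * k - 6) / 6).toNat + 1 := by omega
    rw [h1, pow_succ, mul_comm]
  · rw [e6p_of_not h, e6p_of_not (fun h' => h ⟨by omega, by omega⟩), mul_zero]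

end Fermat.Agent.S20.FreeAux
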