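import Fermat.Agent.S20.Free.Defs

/-!
# S20 / Free: level-one toolbox (monomials `E₆^m`, constants, products, dimension bound)
-/

set_option autoImplicit false

open UpperHalfPlane ModularForm CongruenceSubgroup
open scoped MatrixGroups ModularForm Manifold
open Fermat.Agent.S23

namespace Fermat.Agent.S20.FreeAux

variable {N : ℕ} [NeZero N]

/-- The monomial `E₆^(e/6)` as a level-one form of weight `e` (zero unless `0 ≤ e`, `6 ∣ e`). -/
theorem exists_e6p_form (e : ℤ) : ∃ a : ModularForm 𝒮ℒ e, ∀ z : ℍ, a z = e6p e z := by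
  by_cases h : 0 ≤ e ∧ (6 : ℤ) ∣ e
  · have hw : (((e / 6).toNat : ℕ) : ℤ) * 6 = e := by
      obtain ⟨h0, k, rfl⟩ := h
      omega
    refine ⟨ModularForm.mcast hw (E₆.pow (e / 6).toNat), fun z => ?_⟩
    rw [e6p_of_pos h, ModularForm.mcast_apply, ModularForm.coe_pow]
    rfl
  · exact ⟨0, fun z => by rw [e6p_of_not h]; rfl⟩

/-- Constants are level-one forms of weight `0`. -/
theorem exists_L1_const {e : ℤ} (he : e = 0) (c : ℂ) :
    ∃ a : ModularForm 𝒮ℒ e, ∀ z : ℍ, a z = c := by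
  subst he
  exact ⟨ModularForm.const c, fun z => rfl⟩

/-- Products of level-one forms. -/
theorem exists_L1_mul {e₁ e₂ e : ℤ} (h : e = e₁ + e₂) (a : ModularForm 𝒮ℒ e₁)
    (b : ModularForm 𝒮ℒ e₂) : ∃ p : ModularForm 𝒮ℒ e, ∀ z : ℍ, p z = a z * b z := by
  exact ⟨ModularForm.mcast h.symm (a.mul b), fun z => rfl⟩

/-- `dim M_e(SL(2,ℤ)) ≥ L` for even `e ≥ 12 L`. -/
theorem finrank_levelOne_ge (L : ℕ) {e : ℤ} (he : Even e) (h : 12 * (L : ℤ) ≤ e) :
    L ≤ Module.finrank ℂ (ModularForm 𝒮ℒ e) := by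
  have h0 : 0 ≤ e := le_trans (by positivity) h
  lift e to ℕ using h0
  have hk2 : Even e := by exact_mod_cast he
  have hL : L ≤ e / 12 := by omega
  have hr := ModularForm.dimension_level_one e hk2
  by_cases hm : e ≡ 2 [MOD 12]
  · rw [if_pos hm] at hr
    have hf : Module.finrank ℂ (ModularForm 𝒮ℒ (e : ℤ)) = e / 12 :=
      Module.finrank_eq_of_rank_eq (by exact_mod_cast hr)
    omega
  · rw [if_neg hm] at hr
    have hf : Module.finrank ℂ (ModularForm 𝒮ℒ (e : ℤ)) = e / 12 + 1 :=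
      Module.finrank_eq_of_rank_eq (by exact_mod_cast hr)
    omega

end Fermat.Agent.S20.FreeAux
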